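/-
Element-level criteria for the vanishing of `H¹` and `H²`, and comparison with Tate cohomology.
-/
import Mathlib
import Fermat.Agent.Lib.CFT.Coh.InfRes

namespace Fermat.Agent.Lib.CFT.Coh.TateThm

open groupCohomology CategoryTheory CategoryTheory.Limits

universe u

variable {k G : Type u} [CommRing k] [Group G] (M : Rep k G)

/-- Every `2`-cocycle of a representation with vanishing `H²` is a coboundary. -/
theorem exists_of_isZero_H2 (h : IsZero (groupCohomology M 2)) (y : G × G → M)
    (hy : ∀ g h j : G, y (g * h, j) + y (g, h) = M.ρ g (y (h, j)) + y (g, h * j)) :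
    ∃ w : G → M, ∀ g h : G, y (g, h) = M.ρ g (w h) - w (g * h) + w g := by
  have hmem : y ∈ cocycles₂ M := (mem_cocycles₂_iff y).2 hy
  have h0 : H2π M ⟨y, hmem⟩ = 0 := by
    have := (ModuleCat.isZero_iff_subsingleton.1 h)
    exact Subsingleton.elim _ _
  obtain ⟨w, hw⟩ := (H2π_eq_zero_iff (⟨y, hmem⟩ : cocycles₂ M)).1 h0
  exact ⟨w, fun g h => (congr_fun hw (g, h)).symm⟩

theorem isZero_H1_of_forall
    (h : ∀ y : G → M, (∀ g j : G, y (g * j) = M.ρ g (y j) + y g) →
      ∃ w : M, ∀ g, M.ρ g w - w = y g) : IsZero (groupCohomology M 1) := by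
  rw [ModuleCat.isZero_iff_subsingleton]
  refine ⟨fun x y => ?_⟩
  have key : ∀ x : groupCohomology M 1, x = 0 := by
    intro x
    induction x using H1_induction_on with
    | h z =>
      rw [H1π_eq_zero_iff]
      obtain ⟨w, hw⟩ := h z ((mem_cocycles₁_iff z).1 z.2)
      exact ⟨w, funext fun g => hw g⟩
  rw [key x, key y]

theorem isZero_H2_of_forall
    (h : ∀ y : G × G → M,
      (∀ g h j : G, y (g * h, j) + y (g, h) = M.ρ g (y (h, j)) + y (g, h * j)) →
      ∃ w : G → M, ∀ g h : G, y (g, h) = M.ρ g (w h) - w (g * h) + w g) :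
    IsZero (groupCohomology M 2) := by
  rw [ModuleCat.isZero_iff_subsingleton]
  refine ⟨fun x y => ?_⟩
  have key : ∀ x : groupCohomology M 2, x = 0 := by
    intro x
    induction x using H2_induction_on with
    | h z =>
      rw [H2π_eq_zero_iff]
      obtain ⟨w, hw⟩ := h z ((mem_cocycles₂_iff z).1 z.2)
      exact ⟨w, funext fun p => (hw p.1 p.2).symm⟩
  rw [key x, key y]

variable [Fintype G]

theorem isZero_tateCohomology_iff_groupCohomology (n : ℕ) [NeZero n] :
    IsZero (tateCohomology M n) ↔ IsZero (groupCohomology M n) :=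
  ((TateCohomology.isoGroupCohomology (R := k) (G := G) n).app M).isZero_iff

end Fermat.Agent.Lib.CFT.Coh.TateThm
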