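/-
Tate's theorem, part 1: the splitting module `C(u)` of a 2-cocycle `u`.

For a `G`-module `C` and a 2-cocycle `u : G × G → C` we build the `G`-module
`C(u) = C × I_G` (`I_G` the augmentation ideal of `ℤ[G]`) with the twisted action
`g • (c, y) = (g • c + φ_g y, g • y)`, `φ_g (Σ n_h [h]) = Σ n_h u(g,h)`, and the exact sequence
`0 → C → C(u) → I_G → 0`.  The cocycle `u` becomes the coboundary of `g ↦ (u(1,1), [g] - [1])`.
-/
import Mathlib
import Fermat.Agent.Lib.CFT.Coh.CohTriv.Free
import Fermat.Agent.Lib.CFT.Coh.InfRes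

namespace Fermat.Agent.Lib.CFT.Coh.TateThm

open Representation Finsupp groupCohomology CategoryTheory

variable {G : Type} [Group G]

section augmentation

variable (G)

/-- The augmentation ideal of `ℤ[G]`, as a submodule of `G →₀ ℤ`. -/
noncomputable def augIdeal : Submodule ℤ (G →₀ ℤ) := LinearMap.ker (regularAug (G := G) (X := ℤ))

variable {G}

theorem mem_augIdeal {y : G →₀ ℤ} : y ∈ augIdeal G ↔ regularAug y = 0 := LinearMap.mem_ker

theorem augIdeal_le_comap (g : G) : augIdeal G ≤ (augIdeal G).comap (regularRep G ℤ g) := by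
  intro y hy
  rw [Submodule.mem_comap, mem_augIdeal, regularAug_regularRep]
  exact mem_augIdeal.1 hy

/-- `[g] - [1]` as an element of the augmentation ideal. -/
noncomputable def augGen (g : G) : augIdeal G :=
  ⟨single g 1 - single 1 1, by rw [mem_augIdeal, map_sub, regularAug_single, regularAug_single,
    sub_self]⟩

@[simp] theorem augGen_val (g : G) : (augGen g : G →₀ ℤ) = single g 1 - single 1 1 := rfl

variable (G) in
/-- The representation of `G` on the augmentation ideal. -/
noncomputable def augRep : Representation ℤ G (augIdeal G) :=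
  (regularRep G ℤ).subrepresentation (augIdeal G) augIdeal_le_comap

@[simp] theorem augRep_val (g : G) (y : augIdeal G) :
    ((augRep G g y : augIdeal G) : G →₀ ℤ) = regularRep G ℤ g y := rfl

theorem augRep_augGen (g h : G) : augRep G g (augGen h) = augGen (g * h) - augGen g := by
  apply Subtype.ext
  simp [augRep_val, regularRep_single, map_sub]

end augmentation

section splitting

variable {A : Type} [AddCommGroup A] (ρ : Representation ℤ G A) (u : G × G → A)

/-- `φ_g : ℤ[G] → A`, `[h] ↦ u(g,h)`. -/
noncomputable def uMap (g : G) : (G →₀ ℤ) →ₗ[ℤ] A := Finsupp.linearCombination ℤ fun h => u (g, h)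

@[simp] theorem uMap_single (g h : G) (n : ℤ) : uMap u g (single h n) = n • u (g, h) := by
  simp [uMap]

variable {ρ u}

/-- The twisted cocycle identity, on all of `ℤ[G]`. -/
theorem uMap_mul (hu : u ∈ cocycles₂ (Rep.of ρ)) (g h : G) (y : G →₀ ℤ) :
    uMap u (g * h) y + regularAug y • u (g, h) =
      ρ g (uMap u h y) + uMap u g (regularRep G ℤ h y) := by
  induction y using Finsupp.induction_linear with
  | zero => simp
  | add y z hy hz =>
    simp only [map_add, add_smul]
    rw [add_add_add_comm, hy, hz, add_add_add_comm]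
  | single k n =>
    have := (mem_cocycles₂_iff (A := Rep.of ρ) u).1 hu g h k
    simp only [uMap_single, regularAug_single, regularRep_single, map_zsmul]
    rw [← smul_add, ← smul_add]
    exact congrArg (n • ·) this

theorem uMap_one (hu : u ∈ cocycles₂ (Rep.of ρ)) (y : G →₀ ℤ) :
    uMap u 1 y = regularAug y • u (1, 1) := by
  induction y using Finsupp.induction_linear with
  | zero => simp
  | add y z hy hz => simp only [map_add, add_smul, hy, hz]
  | single k n =>
    have := cocycles₂_map_one_fst (A := Rep.of ρ) ⟨u, hu⟩ k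
    simp only [uMap_single, regularAug_single]
    exact congrArg (n • ·) this

variable (ρ u)

/-- The action of `g` on the splitting module `A × I_G`. -/
noncomputable def splitAct (g : G) : (A × augIdeal G) →ₗ[ℤ] (A × augIdeal G) :=
  LinearMap.prod
    ((ρ g).comp (LinearMap.fst ℤ A (augIdeal G)) +
      ((uMap u g).comp (augIdeal G).subtype).comp (LinearMap.snd ℤ A (augIdeal G)))
    ((augRep G g).comp (LinearMap.snd ℤ A (augIdeal G)))

@[simp] theorem splitAct_apply (g : G) (x : A × augIdeal G) :
    splitAct ρ u g x = (ρ g x.1 + uMap u g (x.2 : G →₀ ℤ), augRep G g x.2) := rfl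

variable {ρ u}

/-- The splitting module `A(u)` as a representation on `A × I_G`. -/
noncomputable def splitRep (hu : u ∈ cocycles₂ (Rep.of ρ)) :
    Representation ℤ G (A × augIdeal G) where
  toFun g := splitAct ρ u g
  map_one' := by
    apply LinearMap.ext
    rintro ⟨c, y⟩
    have hy : regularAug (y : G →₀ ℤ) = 0 := mem_augIdeal.1 y.2
    simp only [splitAct_apply, uMap_one hu, hy, zero_smul, add_zero, map_one,
      Module.End.one_apply]
  map_mul' g h := by
    apply LinearMap.ext
    rintro ⟨c, y⟩
    have hy : regularAug (y : G →₀ ℤ) = 0 := mem_augIdeal.1 y.2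
    have := uMap_mul hu g h (y : G →₀ ℤ)
    rw [hy, zero_smul, add_zero] at this
    simp only [splitAct_apply, Module.End.mul_apply, map_mul, map_add, augRep_val, this,
      Prod.mk.injEq, and_true]
    abel

@[simp] theorem splitRep_apply (hu : u ∈ cocycles₂ (Rep.of ρ)) (g : G) (x : A × augIdeal G) :
    splitRep hu g x = (ρ g x.1 + uMap u g (x.2 : G →₀ ℤ), augRep G g x.2) := rfl

/-- The splitting module as an object of `Rep ℤ G`. -/
noncomputable abbrev splitModule (hu : u ∈ cocycles₂ (Rep.of ρ)) : Rep.{0} ℤ G :=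
  Rep.of (splitRep hu)

variable (G) in
/-- The augmentation ideal as an object of `Rep ℤ G`. -/
noncomputable abbrev augModule : Rep.{0} ℤ G := Rep.of (augRep G)

/-- The inclusion `A → A(u)`. -/
noncomputable def splitIncl (hu : u ∈ cocycles₂ (Rep.of ρ)) : Rep.of ρ ⟶ splitModule hu :=
  Rep.ofHom ⟨LinearMap.inl ℤ A (augIdeal G), fun g => by
    apply LinearMap.ext
    intro a
    simp⟩

/-- The projection `A(u) → I_G`. -/
noncomputable def splitProj (hu : u ∈ cocycles₂ (Rep.of ρ)) : splitModule hu ⟶ augModule G :=
  Rep.ofHom ⟨LinearMap.snd ℤ A (augIdeal G), fun g => by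
    apply LinearMap.ext
    intro a
    simp⟩

@[simp] theorem splitIncl_apply (hu : u ∈ cocycles₂ (Rep.of ρ)) (a : A) :
    (splitIncl hu).hom a = (a, 0) := rfl

@[simp] theorem splitProj_apply (hu : u ∈ cocycles₂ (Rep.of ρ)) (x : A × augIdeal G) :
    (splitProj hu).hom x = x.2 := rfl

/-- The short complex `A → A(u) → I_G`. -/
noncomputable def splitSES (hu : u ∈ cocycles₂ (Rep.of ρ)) : ShortComplex (Rep.{0} ℤ G) :=
  ShortComplex.mk (splitIncl hu) (splitProj hu) (by
    apply Rep.hom_ext
    apply Representation.IntertwiningMap.ext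
    apply LinearMap.ext
    intro a
    rfl)

theorem splitSES_shortExact (hu : u ∈ cocycles₂ (Rep.of ρ)) : (splitSES hu).ShortExact := by
  refine InfRes.shortExact_of ?_ ?_ ?_
  · intro a b hab
    exact congrArg Prod.fst hab
  · intro y
    exact ⟨((0 : A), y), rfl⟩
  · rintro ⟨a, y⟩ hx
    refine ⟨a, ?_⟩
    have : y = 0 := hx
    subst this
    rfl

end splitting

end Fermat.Agent.Lib.CFT.Coh.TateThm
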