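/-
Tate's theorem, part 4: the Nakayama map `g ↦ Σ_x u(x, g)` induces a bijection
`G^ab → A^G / N_G A` as soon as the splitting module has vanishing `Ĥ⁰` and `Ĥ⁻¹`.
-/
import Mathlib
import Fermat.Agent.Lib.CFT.Coh.TateThm.Splitting
import Fermat.Agent.Lib.CFT.Coh.Induced

namespace Fermat.Agent.Lib.CFT.Coh.TateThm

open Representation Finsupp groupCohomology CategoryTheory CategoryTheory.Limits

variable {G : Type} [Group G] [Fintype G] {A : Type} [AddCommGroup A]
  {ρ : Representation ℤ G A} {u : G × G → A}

/-- The Nakayama element `Σ_x u(x, g)`. -/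
def nakSum (u : G × G → A) (g : G) : A := ∑ x, u (x, g)

theorem nakSum_mul (hu : u ∈ cocycles₂ (Rep.of ρ)) (g g' : G) :
    nakSum u (g * g') = nakSum u g + nakSum u g' - ρ.norm (u (g, g')) := by
  have h1 : ∀ x : G, u (x * g, g') + u (x, g) = ρ x (u (g, g')) + u (x, g * g') :=
    fun x => (mem_cocycles₂_iff (A := Rep.of ρ) u).1 hu x g g'
  have h2 : ∑ x, u (x * g, g') = nakSum u g' :=
    Fintype.sum_equiv (Equiv.mulRight g) _ _ (fun x => rfl)
  have h3 : ∑ x, (u (x * g, g') + u (x, g)) = ∑ x, (ρ x (u (g, g')) + u (x, g * g')) :=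
    Finset.sum_congr rfl fun x _ => h1 x
  rw [Finset.sum_add_distrib, Finset.sum_add_distrib, h2] at h3
  have h4 : ρ.norm (u (g, g')) = ∑ x, ρ x (u (g, g')) := by
    simp [Representation.norm]
  unfold nakSum at *
  rw [h4]
  rw [eq_sub_iff_add_eq, add_comm, ← h3, add_comm]

theorem nakSum_one (hu : u ∈ cocycles₂ (Rep.of ρ)) : nakSum u 1 = ρ.norm (u (1, 1)) := by
  have := nakSum_mul hu 1 1
  rw [mul_one] at this
  have h2 : nakSum u 1 - ρ.norm (u (1, 1)) = 0 := by
    rw [eq_sub_iff_add_eq] at this
    have h3 := add_left_cancel (a := nakSum u 1) (b := ρ.norm (u (1, 1))) (c := nakSum u 1)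
    rw [sub_eq_zero]
    exact (h3 (by rw [this])).symm
  exact sub_eq_zero.1 h2

/-- `Φ(y) = Σ_g φ_g(y)`. -/
noncomputable def uMapSum (u : G × G → A) : (G →₀ ℤ) →ₗ[ℤ] A := ∑ g, uMap u g

theorem uMapSum_single (h : G) (n : ℤ) : uMapSum u (single h n) = n • nakSum u h := by
  simp [uMapSum, nakSum, LinearMap.sum_apply, Finset.smul_sum]

/-- The image of `Φ` consists of Nakayama elements modulo norms. -/
theorem uMapSum_eq_nakSum_add_norm (hu : u ∈ cocycles₂ (Rep.of ρ)) (y : G →₀ ℤ) :
    ∃ (g : G) (c : A), uMapSum u y = nakSum u g + ρ.norm c := by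
  -- the property is closed under zero, addition and negation
  have hzero : ∃ (g : G) (c : A), (0 : A) = nakSum u g + ρ.norm c :=
    ⟨1, -u (1, 1), by rw [nakSum_one hu, map_neg, add_neg_cancel]⟩
  have hadd : ∀ a b : A, (∃ (g : G) (c : A), a = nakSum u g + ρ.norm c) →
      (∃ (g : G) (c : A), b = nakSum u g + ρ.norm c) →
      ∃ (g : G) (c : A), a + b = nakSum u g + ρ.norm c := by
    rintro a b ⟨g₁, c₁, rfl⟩ ⟨g₂, c₂, rfl⟩
    refine ⟨g₁ * g₂, u (g₁, g₂) + c₁ + c₂, ?_⟩
    rw [nakSum_mul hu, map_add, map_add]
    abel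
  have hneg : ∀ a : A, (∃ (g : G) (c : A), a = nakSum u g + ρ.norm c) →
      ∃ (g : G) (c : A), -a = nakSum u g + ρ.norm c := by
    rintro a ⟨g, c, rfl⟩
    refine ⟨g⁻¹, -(u (1, 1)) - u (g, g⁻¹) - c, ?_⟩
    have h1 := nakSum_mul hu g g⁻¹
    rw [mul_inv_cancel, nakSum_one hu] at h1
    have h2 : nakSum u g⁻¹ = ρ.norm (u (1, 1)) + ρ.norm (u (g, g⁻¹)) - nakSum u g := by
      rw [h1]; abel
    rw [h2, map_sub, map_sub, map_neg]
    abel
  have hsingle : ∀ (h : G) (n : ℤ), ∃ (g : G) (c : A), n • nakSum u h = nakSum u g + ρ.norm c := by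
    intro h n
    induction n using Int.induction_on with
    | zero => simpa using hzero
    | succ n ih =>
      rw [add_smul, one_smul]
      exact hadd _ _ ih ⟨h, 0, by simp⟩
    | pred n ih =>
      rw [sub_smul, one_smul, sub_eq_add_neg]
      exact hadd _ _ ih (hneg _ ⟨h, 0, by simp⟩)
  induction y using Finsupp.induction_linear with
  | zero => simpa using hzero
  | add a b ha hb =>
    rw [map_add]
    exact hadd _ _ ha hb
  | single h n =>
    rw [uMapSum_single]
    exact hsingle h n

section norm

variable (hu : u ∈ cocycles₂ (Rep.of ρ))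

/-- The norm on the augmentation ideal vanishes. -/
theorem augRep_norm_eq_zero (y : augIdeal G) : (augRep G).norm y = 0 := by
  apply Subtype.ext
  have h1 : (((augRep G).norm y : augIdeal G) : G →₀ ℤ) = (regularRep G ℤ).norm (y : G →₀ ℤ) := by
    simp [Representation.norm, LinearMap.sum_apply]
  rw [h1]
  have key : ∀ z : G →₀ ℤ, (regularRep G ℤ).norm z = regularAug z • ∑ x : G, single x (1 : ℤ) := by
    intro z
    induction z using Finsupp.induction_linear with
    | zero => simp
    | add a b ha hb => rw [map_add, map_add, add_smul, ha, hb]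
    | single h n =>
      simp only [Representation.norm, LinearMap.sum_apply, regularRep_single, regularAug_single,
        Finset.smul_sum, Finsupp.smul_single, smul_eq_mul, mul_one]
      exact Fintype.sum_equiv (Equiv.mulRight h) _ _ (fun x => rfl)
  rw [key, mem_augIdeal.1 y.2, zero_smul]
  rfl

/-- The norm on the splitting module. -/
theorem splitRep_norm (x : A × augIdeal G) :
    (splitRep hu).norm x = (ρ.norm x.1 + uMapSum u (x.2 : G →₀ ℤ), 0) := by
  apply Prod.ext
  · simp [Representation.norm, LinearMap.sum_apply, uMapSum, Prod.fst_sum,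
      Finset.sum_add_distrib]
  · have : ((splitRep hu).norm x).2 = (augRep G).norm x.2 := by
      simp [Representation.norm, LinearMap.sum_apply, Prod.snd_sum]
    rw [this, augRep_norm_eq_zero]

end norm

section bijective

variable (hu : u ∈ cocycles₂ (Rep.of ρ))

include hu in
/-- **Surjectivity of the Nakayama map**: if `Ĥ⁰` of the splitting module vanishes, every
`G`-invariant element of `A` is a Nakayama element up to a norm. -/
theorem nakayama_surjective_of_isZero (h0 : IsZero (tateCohomology (splitModule hu) 0)) (a : A)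
    (ha : ∀ g, ρ g a = a) : ∃ (g : G) (c : A), a = nakSum u g + ρ.norm c := by
  rw [Induced.isZero_tateCohomology_zero_iff] at h0
  obtain ⟨m', hm'⟩ := h0 ((a, 0) : A × augIdeal G) (fun g => by
    show splitRep hu g (a, 0) = (a, 0)
    simp [ha g])
  have h1 : (splitRep hu).norm m' = ((a, 0) : A × augIdeal G) := hm'
  rw [splitRep_norm hu] at h1
  have h2 : ρ.norm m'.1 + uMapSum u (m'.2 : G →₀ ℤ) = a := congrArg Prod.fst h1
  obtain ⟨g, c, hgc⟩ := uMapSum_eq_nakSum_add_norm hu (m'.2 : G →₀ ℤ)
  refine ⟨g, m'.1 + c, ?_⟩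
  rw [← h2, hgc, map_add]
  abel

/-- The "logarithm" `ℤ[G] → G^ab`. -/
noncomputable def abMap : (G →₀ ℤ) →ₗ[ℤ] Additive (Abelianization G) :=
  Finsupp.linearCombination ℤ fun h => Additive.ofMul (Abelianization.of h)

omit [Fintype G] in
@[simp] theorem abMap_single (h : G) (n : ℤ) :
    abMap (single h n) = n • Additive.ofMul (Abelianization.of h) := by
  simp [abMap]

omit [Fintype G] in
theorem abMap_regularRep (x : G) (y : G →₀ ℤ) :
    abMap (regularRep G ℤ x y) = regularAug y • Additive.ofMul (Abelianization.of x) + abMap y := by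
  induction y using Finsupp.induction_linear with
  | zero => simp
  | add a b ha hb =>
    rw [map_add, map_add, map_add, map_add, ha, hb, add_smul]
    abel
  | single h n =>
    simp only [regularRep_single, abMap_single, regularAug_single, map_mul, ofMul_mul, smul_add]

include hu in
/-- **Injectivity of the Nakayama map**: if `Ĥ⁻¹` of the splitting module vanishes and the
Nakayama element of `g` is a norm, then `g` is a product of commutators. -/
theorem nakayama_injective_of_isZero (h1 : IsZero (tateCohomology (splitModule hu) (-1))) (g : G)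
    (c : A) (hg : nakSum u g = ρ.norm c) : g ∈ commutator G := by
  rw [Induced.isZero_tateCohomology_neg_one_iff] at h1
  have hnorm : (splitRep hu).norm ((u (1, 1) - c, augGen g) : A × augIdeal G) = 0 := by
    rw [splitRep_norm hu]
    apply Prod.ext
    · simp only [augGen_val, map_sub, uMapSum_single, one_smul, hg, nakSum_one hu, Prod.fst_zero]
      abel
    · rfl
  have hmem := h1 ((u (1, 1) - c, augGen g) : A × augIdeal G) hnorm
  -- the linear map `(c, y) ↦ abMap y` kills the augmentation submodule
  let L : (A × augIdeal G) →ₗ[ℤ] Additive (Abelianization G) :=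
    (abMap.comp (augIdeal G).subtype).comp (LinearMap.snd ℤ A (augIdeal G))
  have hL : ∀ m ∈ Coinvariants.ker (splitRep hu), L m = 0 := by
    intro m hm
    induction hm using Submodule.span_induction with
    | mem x hx =>
      obtain ⟨⟨k, v⟩, rfl⟩ := hx
      have hv : regularAug (v.2 : G →₀ ℤ) = 0 := mem_augIdeal.1 v.2.2
      simp only [L, LinearMap.coe_comp, Function.comp_apply, LinearMap.snd_apply,
        splitRep_apply, Submodule.subtype_apply, augRep_val, map_sub,
        abMap_regularRep, hv, zero_smul, zero_add, sub_self]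
    | zero => simp
    | add a b _ _ ha hb => rw [map_add, ha, hb, add_zero]
    | smul n a _ ha => rw [map_smul, ha, smul_zero]
  have h3 : L ((u (1, 1) - c, augGen g) : A × augIdeal G) = 0 := hL _ hmem
  simp only [L, LinearMap.coe_comp, Function.comp_apply, LinearMap.snd_apply,
    Submodule.subtype_apply, augGen_val, map_sub, abMap_single, one_smul, map_one, ofMul_one,
    sub_zero] at h3
  have h4 : Abelianization.of g = 1 := by
    have := congrArg Additive.toMul h3
    simpa using this
  exact (QuotientGroup.eq_one_iff g).1 h4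

end bijective

end Fermat.Agent.Lib.CFT.Coh.TateThm
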