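/-
Tate's theorem, part 2: `H¹` and `H²` of the splitting module vanish (element-level statements).
-/
import Mathlib
import Fermat.Agent.Lib.CFT.Coh.TateThm.Splitting

namespace Fermat.Agent.Lib.CFT.Coh.TateThm

open Representation Finsupp groupCohomology CategoryTheory

variable {G : Type} [Group G] {A : Type} [AddCommGroup A] {ρ : Representation ℤ G A}
  {u : G × G → A} {H : Type} [Group H] (f : H →* G)

/-- `u(g,1) = g • u(1,1)`. -/
theorem cocycle_map_one_snd (hu : u ∈ cocycles₂ (Rep.of ρ)) (g : G) :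
    u (g, 1) = ρ g (u (1, 1)) :=
  cocycles₂_map_one_snd (A := Rep.of ρ) ⟨u, hu⟩ g

/-- Key computation: moving `uMap` across the group action. -/
theorem uMap_regularRep (hu : u ∈ cocycles₂ (Rep.of ρ)) (g h : G) (w : G →₀ ℤ) :
    uMap u g (regularRep G ℤ h w) =
      uMap u (g * h) w + regularAug w • u (g, h) - ρ g (uMap u h w) := by
  rw [uMap_mul hu g h w]; abel

/-- The sum of the elements of the image of `H` in `ℤ[G]`. -/
noncomputable def imageSum [Fintype H] : G →₀ ℤ := ∑ k : H, single (f k) 1

theorem regularRep_imageSum [Fintype H] (h : H) :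
    regularRep G ℤ (f h) (imageSum f) = imageSum f := by
  unfold imageSum
  rw [map_sum]
  simp only [regularRep_single, ← map_mul]
  exact Fintype.sum_equiv (Equiv.mulLeft h) _ _ (fun k => rfl)

theorem regularAug_imageSum [Fintype H] : regularAug (imageSum f) = (Fintype.card H : ℤ) := by
  unfold imageSum
  rw [map_sum]
  simp [regularAug_single]

section H1

variable (hu : u ∈ cocycles₂ (Rep.of ρ))

include hu in
/-- Auxiliary: the first components of a 1-cocycle of the splitting module, corrected by a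
cochain of `ℤ[G]` bounding the second components. -/
theorem split_cocycle₁_aux (z : H → A × augIdeal G)
    (hz : ∀ h k, z (h * k) = splitRep hu (f h) (z k) + z h) (w : G →₀ ℤ)
    (hw : ∀ h, regularRep G ℤ (f h) w - w = ((z h).2 : G →₀ ℤ)) (h k : H) :
    (z (h * k)).1 - uMap u (f (h * k)) w =
      ρ (f h) ((z k).1 - uMap u (f k) w) + ((z h).1 - uMap u (f h) w) +
        regularAug w • u (f h, f k) := by
  have h1 := congrArg Prod.fst (hz h k)
  simp only [splitRep_apply, Prod.fst_add] at h1
  rw [h1, ← hw k, map_sub, uMap_regularRep hu, map_mul, map_sub]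
  abel

include hu in
theorem split_H1_vanish [Fintype H]
    (h1 : ∀ a : H → A, (∀ h k, a (h * k) = ρ (f h) (a k) + a h) → ∃ c : A, ∀ h, ρ (f h) c - c = a h)
    (hreg : ∀ y : H → (G →₀ ℤ), (∀ h k, y (h * k) = regularRep G ℤ (f h) (y k) + y h) →
      ∃ w, ∀ h, regularRep G ℤ (f h) w - w = y h)
    (hord : ∀ (m : ℤ) (b : H → A),
      (∀ h k, m • u (f h, f k) = ρ (f h) (b k) - b (h * k) + b h) → (Fintype.card H : ℤ) ∣ m)
    (z : H → A × augIdeal G) (hz : ∀ h k, z (h * k) = splitRep hu (f h) (z k) + z h) :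
    ∃ w : A × augIdeal G, ∀ h, splitRep hu (f h) w - w = z h := by
  -- second components
  have hy : ∀ h k, ((z (h * k)).2 : G →₀ ℤ) =
      regularRep G ℤ (f h) ((z k).2 : G →₀ ℤ) + ((z h).2 : G →₀ ℤ) := by
    intro h k
    have := congrArg (fun x => ((x.2 : augIdeal G) : G →₀ ℤ)) (hz h k)
    simpa using this
  obtain ⟨w, hw⟩ := hreg (fun h => ((z h).2 : G →₀ ℤ)) hy
  -- the order argument
  have key := split_cocycle₁_aux f hu z hz w hw
  obtain ⟨m', hm'⟩ := hord (regularAug w) (fun h => -((z h).1 - uMap u (f h) w)) (by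
    intro h k
    show regularAug w • u (f h, f k) = ρ (f h) (-((z k).1 - uMap u (f k) w)) -
      -((z (h * k)).1 - uMap u (f (h * k)) w) + -((z h).1 - uMap u (f h) w)
    rw [key h k, map_neg]
    abel)
  -- corrected bounding element
  set w₁ : G →₀ ℤ := w - m' • imageSum f with hw₁
  have haug : regularAug w₁ = 0 := by
    rw [hw₁, map_sub, map_zsmul, regularAug_imageSum, hm', smul_eq_mul, mul_comm, sub_self]
  have hw₁' : ∀ h, regularRep G ℤ (f h) w₁ - w₁ = ((z h).2 : G →₀ ℤ) := by
    intro h
    rw [hw₁, map_sub, map_zsmul, regularRep_imageSum, ← hw h]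
    abel
  have key₁ := split_cocycle₁_aux f hu z hz w₁ hw₁'
  obtain ⟨c, hc⟩ := h1 (fun h => (z h).1 - uMap u (f h) w₁) (by
    intro h k
    have := key₁ h k
    rw [haug, zero_smul, add_zero] at this
    exact this)
  refine ⟨(c, ⟨w₁, mem_augIdeal.2 haug⟩), fun h => ?_⟩
  apply Prod.ext
  · have := hc h
    rw [eq_sub_iff_add_eq] at this
    simp only [splitRep_apply, Prod.fst_sub]
    rw [← this]
    abel
  · apply Subtype.ext
    simpa using hw₁' h

end H1

section H2

/-- A homomorphism-like function from a finite group to `ℤ` vanishes. -/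
theorem eq_zero_of_map_mul_int [Finite H] (t : H → ℤ) (ht : ∀ g h, t (g * h) = t g + t h)
    (g : H) : t g = 0 := by
  let T : H →* Multiplicative ℤ :=
    { toFun := fun g => Multiplicative.ofAdd (t g)
      map_one' := by
        have := ht 1 1
        rw [mul_one] at this
        have h0 : t 1 = 0 := by linarith
        simp [h0]
      map_mul' := fun g h => by simp [ht g h] }
  have hfin : IsOfFinOrder (T g) := T.isOfFinOrder (isOfFinOrder_of_finite g)
  rw [isOfFinOrder_iff_pow_eq_one] at hfin
  obtain ⟨n, hn, hpow⟩ := hfin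
  have : n • t g = 0 := by
    have := congrArg Multiplicative.toAdd hpow
    simpa [T] using this
  rcases smul_eq_zero.1 this with h | h
  · omega
  · exact h

variable (hu : u ∈ cocycles₂ (Rep.of ρ))

include hu in
theorem split_H2_vanish [Finite H]
    (h2 : ∀ a : H × H → A,
      (∀ g h j, a (g * h, j) + a (g, h) = ρ (f g) (a (h, j)) + a (g, h * j)) →
      ∃ (m : ℤ) (b : H → A), ∀ g h, a (g, h) = m • u (f g, f h) + (ρ (f g) (b h) - b (g * h) + b g))
    (hreg : ∀ y : H × H → (G →₀ ℤ),
      (∀ g h j, y (g * h, j) + y (g, h) = regularRep G ℤ (f g) (y (h, j)) + y (g, h * j)) →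
      ∃ w : H → (G →₀ ℤ), ∀ g h, y (g, h) = regularRep G ℤ (f g) (w h) - w (g * h) + w g)
    (z : H × H → A × augIdeal G)
    (hz : ∀ g h j, z (g * h, j) + z (g, h) = splitRep hu (f g) (z (h, j)) + z (g, h * j)) :
    ∃ w : H → A × augIdeal G, ∀ g h, z (g, h) = splitRep hu (f g) (w h) - w (g * h) + w g := by
  -- second components
  have hy : ∀ g h j, ((z (g * h, j)).2 : G →₀ ℤ) + ((z (g, h)).2 : G →₀ ℤ) =
      regularRep G ℤ (f g) ((z (h, j)).2 : G →₀ ℤ) + ((z (g, h * j)).2 : G →₀ ℤ) := by
    intro g h j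
    have := congrArg (fun x => ((x.2 : augIdeal G) : G →₀ ℤ)) (hz g h j)
    simpa using this
  obtain ⟨w, hw⟩ := hreg (fun p => ((z p).2 : G →₀ ℤ)) hy
  -- the bounding cochain has values in the augmentation ideal
  have haug : ∀ g, regularAug (w g) = 0 := by
    apply eq_zero_of_map_mul_int
    intro g h
    have h0 : regularAug ((z (g, h)).2 : G →₀ ℤ) = 0 := mem_augIdeal.1 (z (g, h)).2.2
    have := congrArg regularAug (hw g h)
    rw [h0, map_add, map_sub, regularAug_regularRep] at this
    linarith
  -- the corrected first components form a cocycle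
  have hu1 : ∀ g h (x : G →₀ ℤ), regularAug x = 0 →
      uMap u g (regularRep G ℤ h x) = uMap u (g * h) x - ρ g (uMap u h x) := by
    intro g h x hx
    rw [uMap_regularRep hu, hx, zero_smul, add_zero]
  obtain ⟨m, b, hmb⟩ := h2 (fun p => (z p).1 - uMap u (f p.1) (w p.2)) (by
    intro g h j
    have h1 := congrArg Prod.fst (hz g h j)
    simp only [splitRep_apply, Prod.fst_add] at h1
    show (z (g * h, j)).1 - uMap u (f (g * h)) (w j) + ((z (g, h)).1 - uMap u (f g) (w h)) =
      ρ (f g) ((z (h, j)).1 - uMap u (f h) (w j)) + ((z (g, h * j)).1 - uMap u (f g) (w (h * j)))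
    have h3 : (z (g * h, j)).1 = ρ (f g) (z (h, j)).1 + uMap u (f g) ((z (h, j)).2 : G →₀ ℤ) +
        (z (g, h * j)).1 - (z (g, h)).1 := by
      rw [← h1]; abel
    rw [h3, hw h j, map_add, map_sub, hu1 _ _ _ (haug j), map_mul, map_sub]
    abel)
  refine ⟨fun h => (b h + m • u (1, 1), ⟨w h, mem_augIdeal.2 (haug h)⟩ + m • augGen (f h)),
    fun g h => ?_⟩
  apply Prod.ext
  · have := hmb g h
    simp only at this
    rw [sub_eq_iff_eq_add] at this
    simp only [splitRep_apply, Prod.fst_add, Prod.fst_sub, this, Submodule.coe_add,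
      Submodule.coe_smul, augGen_val, map_add, map_zsmul, map_sub, uMap_single, one_smul,
      cocycle_map_one_snd hu (f g), map_mul, smul_sub, smul_add]
    abel
  · apply Subtype.ext
    simp only [splitRep_apply, Prod.snd_add, Prod.snd_sub, map_add, map_zsmul, augRep_augGen,
      map_mul]
    have := hw g h
    simp only [Submodule.coe_add, Submodule.coe_sub, Submodule.coe_smul, augRep_val, this,
      augGen_val, smul_sub, smul_add]
    abel

end H2

end Fermat.Agent.Lib.CFT.Coh.TateThm
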