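/-
Tate's theorem, part 3: the splitting module of a fundamental class is cohomologically trivial;
the Tate isomorphisms `Ĥⁿ(H, ℤ) ≅ Ĥⁿ⁺²(H, A)`.
-/
import Mathlib
import Fermat.Agent.Lib.CFT.Coh.TateThm.SplitCoh
import Fermat.Agent.Lib.CFT.Coh.TateThm.LowDeg
import Fermat.Agent.Lib.CFT.Coh.CohTriv.Sylow
import Fermat.Agent.Lib.CFT.Coh.TateThm.Nakayama

namespace Fermat.Agent.Lib.CFT.Coh.TateThm

open Representation Finsupp groupCohomology CategoryTheory CategoryTheory.Limits

variable {G : Type} [Group G] {A : Type} [AddCommGroup A]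

/-- Element-level form of the class-formation axioms for the layer cut out by an injective
homomorphism `φ : H →* G` (think: a subgroup): `H¹(H, A) = 0`, `H²(H, A)` is generated by the
restriction of `u`, which has order exactly `|H|`. -/
structure IsClassLayerAt (ρ : Representation ℤ G A) (u : G × G → A) {H : Type} [Group H]
    [Fintype H] (φ : H →* G) : Prop where
  h1 : ∀ a : H → A, (∀ h k, a (h * k) = ρ (φ h) (a k) + a h) → ∃ c : A, ∀ h, ρ (φ h) c - c = a h
  h2 : ∀ a : H × H → A,
    (∀ g h j, a (g * h, j) + a (g, h) = ρ (φ g) (a (h, j)) + a (g, h * j)) →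
    ∃ (m : ℤ) (b : H → A), ∀ g h, a (g, h) = m • u (φ g, φ h) + (ρ (φ g) (b h) - b (g * h) + b g)
  hord : ∀ (m : ℤ) (b : H → A),
    (∀ h k, m • u (φ h, φ k) = ρ (φ h) (b k) - b (h * k) + b h) → (Fintype.card H : ℤ) ∣ m

/-- Transport of the axioms along an isomorphism of groups. -/
theorem IsClassLayerAt.of_equiv {ρ : Representation ℤ G A} {u : G × G → A} {H H' : Type}
    [Group H] [Fintype H] [Group H'] [Fintype H'] {φ' : H' →* G}
    (h : IsClassLayerAt ρ u φ') (e : H ≃* H') : IsClassLayerAt ρ u (φ'.comp e.toMonoidHom) where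
  h1 a ha := by
    obtain ⟨c, hc⟩ := h.h1 (fun x => a (e.symm x)) (fun x y => by
      have := ha (e.symm x) (e.symm y)
      simpa using this)
    exact ⟨c, fun x => by simpa using hc (e x)⟩
  h2 a ha := by
    obtain ⟨m, b, hb⟩ := h.h2 (fun p => a (e.symm p.1, e.symm p.2)) (fun x y z => by
      have := ha (e.symm x) (e.symm y) (e.symm z)
      simpa using this)
    exact ⟨m, fun x => b (e x), fun x y => by simpa using hb (e x) (e y)⟩
  hord m b hb := by
    have := h.hord m (fun x => b (e.symm x)) (fun x y => by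
      have := hb (e.symm x) (e.symm y)
      simpa using this)
    rwa [Fintype.card_congr e.toEquiv]

section cohTrivial

variable [Finite G] {ρ : Representation ℤ G A} {u : G × G → A}

/-- `H¹` of the regular module `ℤ[G]` vanishes on every subgroup (element level). -/
theorem regular_H1_vanish {H : Type} [Group H] [Fintype H] (φ : H →* G)
    (hφ : Function.Injective φ) (y : H → (G →₀ ℤ))
    (hy : ∀ h k, y (h * k) = regularRep G ℤ (φ h) (y k) + y h) :
    ∃ w, ∀ h, regularRep G ℤ (φ h) w - w = y h := by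
  have hz : IsZero (groupCohomology (Rep.res φ (Rep.of (regularRep G ℤ))) 1) :=
    (isZero_tateCohomology_iff_groupCohomology _ 1).1 (isCohTrivial_regularRep (G := G) ℤ H φ hφ 1)
  exact InfRes.exists_of_isZero_H1 _ hz y hy

/-- `H²` of the regular module `ℤ[G]` vanishes on every subgroup (element level). -/
theorem regular_H2_vanish {H : Type} [Group H] [Fintype H] (φ : H →* G)
    (hφ : Function.Injective φ) (y : H × H → (G →₀ ℤ))
    (hy : ∀ g h j, y (g * h, j) + y (g, h) = regularRep G ℤ (φ g) (y (h, j)) + y (g, h * j)) :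
    ∃ w : H → (G →₀ ℤ), ∀ g h, y (g, h) = regularRep G ℤ (φ g) (w h) - w (g * h) + w g := by
  have hz : IsZero (groupCohomology (Rep.res φ (Rep.of (regularRep G ℤ))) 2) :=
    (isZero_tateCohomology_iff_groupCohomology _ 2).1 (isCohTrivial_regularRep (G := G) ℤ H φ hφ 2)
  exact exists_of_isZero_H2 _ hz y hy

/-- **The splitting module of a fundamental class is cohomologically trivial.** -/
theorem isCohTrivial_splitModule (hu : u ∈ cocycles₂ (Rep.of ρ))
    (h : ∀ (H : Type) [Group H] [Fintype H] (φ : H →* G), Function.Injective φ →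
      IsClassLayerAt ρ u φ) : IsCohTrivial (splitModule hu) := by
  apply CohTriv.isCohTrivial_of_forall _ 1
  intro H _ _ φ hφ
  have hL := h H φ hφ
  constructor
  · refine (isZero_tateCohomology_iff_groupCohomology _ 1).2 ?_
    apply isZero_H1_of_forall
    intro z hz
    exact split_H1_vanish φ hu hL.h1 (regular_H1_vanish φ hφ) hL.hord z hz
  · refine (isZero_tateCohomology_iff_groupCohomology _ 2).2 ?_
    apply isZero_H2_of_forall
    intro z hz
    exact split_H2_vanish φ hu hL.h2 (regular_H2_vanish φ hφ) z hz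

end cohTrivial

section classLayer

/-- Restriction of a 2-cochain along a group homomorphism. -/
def resCocycle {H : Type} [Group H] {A : Rep.{0} ℤ G} (u : G × G → A) (φ : H →* G) :
    H × H → (Rep.res φ A) := fun p => u (φ p.1, φ p.2)

theorem resCocycle_mem {H : Type} [Group H] {A : Rep.{0} ℤ G} {u : G × G → A}
    (hu : u ∈ cocycles₂ A) (φ : H →* G) : resCocycle u φ ∈ cocycles₂ (Rep.res φ A) := by
  rw [mem_cocycles₂_iff]
  intro g h j
  have := (mem_cocycles₂_iff u).1 hu (φ g) (φ h) (φ j)
  simpa [resCocycle] using this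

/-- **Class layer** (hypothesis of Tate's theorem): `u` is a 2-cocycle of the `G`-module `A`
such that for every subgroup `H ≤ G`: `H¹(H, A) = 0` and `H²(H, A)` is cyclic of order `|H|`,
generated by the restriction of the class of `u`. -/
structure IsClassLayer (A : Rep.{0} ℤ G) (u : G × G → A) : Prop where
  cocycle : u ∈ cocycles₂ A
  h1 : ∀ H : Subgroup G, IsZero (groupCohomology.H1 (Rep.res H.subtype A))
  h2_gen : ∀ (H : Subgroup G) (x : groupCohomology.H2 (Rep.res H.subtype A)),
    ∃ m : ℤ, x = m • groupCohomology.H2π _ ⟨resCocycle u H.subtype, resCocycle_mem cocycle H.subtype⟩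
  h2_ord : ∀ (H : Subgroup G) (m : ℤ),
    m • groupCohomology.H2π _ ⟨resCocycle u H.subtype, resCocycle_mem cocycle H.subtype⟩ = 0 →
      (Nat.card H : ℤ) ∣ m

variable {ρ : Representation ℤ G A} {u : G × G → A}

/-- From the cohomological formulation to the element-level one, on a subgroup. -/
theorem IsClassLayer.at_subgroup (h : IsClassLayer (Rep.of ρ) u) (S : Subgroup G) [Fintype S] :
    IsClassLayerAt ρ u S.subtype where
  h1 a ha := InfRes.exists_of_isZero_H1 (Rep.res S.subtype (Rep.of ρ)) (h.h1 S) a ha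
  h2 a ha := by
    have hmem : a ∈ cocycles₂ (Rep.res S.subtype (Rep.of ρ)) :=
      (mem_cocycles₂_iff (A := Rep.res S.subtype (Rep.of ρ)) a).2 ha
    obtain ⟨m, hm⟩ := h.h2_gen S (H2π _ ⟨a, hmem⟩)
    rw [← map_zsmul, H2π_eq_iff] at hm
    obtain ⟨b, hb⟩ := hm
    refine ⟨m, b, fun g k => ?_⟩
    have := congr_fun hb (g, k)
    simp only [d₁₂_hom_apply] at this
    have h3 : a (g, k) - m • u ((g : G), (k : G)) =
        ρ (g : G) (b k) - b (g * k) + b g := this.symm
    rw [sub_eq_iff_eq_add] at h3
    rw [h3]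
    simp only [Subgroup.coe_subtype]
    abel
  hord m b hb := by
    have := h.h2_ord S m (by
      rw [← map_zsmul, H2π_eq_zero_iff]
      refine ⟨b, funext fun p => ?_⟩
      simp only [d₁₂_hom_apply]
      exact (hb p.1 p.2).symm)
    rwa [Nat.card_eq_fintype_card] at this

/-- From the cohomological formulation to the element-level one, along an injective
homomorphism. -/
theorem IsClassLayer.at_injective (h : IsClassLayer (Rep.of ρ) u) {H : Type} [Group H]
    [Fintype H] (φ : H →* G) (hφ : Function.Injective φ) : IsClassLayerAt ρ u φ := by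
  classical
  let _ : Fintype φ.range := Fintype.ofFinite _
  have h1 := (h.at_subgroup φ.range).of_equiv (MonoidHom.ofInjective hφ)
  have h2 : φ.range.subtype.comp (MonoidHom.ofInjective hφ).toMonoidHom = φ := by
    ext x
    exact MonoidHom.ofInjective_apply hφ
  rwa [h2] at h1

end classLayer

section augmentation

variable (G)

/-- The inclusion `I_G → ℤ[G]`. -/
noncomputable def augIncl : augModule G ⟶ Rep.of (regularRep G ℤ) :=
  Rep.ofHom ⟨(augIdeal G).subtype, fun _ => rfl⟩

/-- The augmentation `ℤ[G] → ℤ`. -/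
noncomputable def augHom : Rep.of (regularRep G ℤ) ⟶ Rep.trivial ℤ G ℤ :=
  Rep.ofHom ⟨regularAug, fun g => by
    apply LinearMap.ext
    intro y
    exact regularAug_regularRep g y⟩

/-- The augmentation sequence `0 → I_G → ℤ[G] → ℤ → 0`. -/
noncomputable def augSES : ShortComplex (Rep.{0} ℤ G) :=
  ShortComplex.mk (augIncl G) (augHom G) (by
    apply Rep.hom_ext
    apply Representation.IntertwiningMap.ext
    apply LinearMap.ext
    intro y
    exact mem_augIdeal.1 y.2)

theorem augSES_shortExact : (augSES G).ShortExact := by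
  refine InfRes.shortExact_of ?_ ?_ ?_
  · intro a b hab
    exact Subtype.ext hab
  · intro n
    exact ⟨single 1 n, regularAug_single 1 n⟩
  · intro y hy
    exact ⟨⟨y, mem_augIdeal.2 hy⟩, rfl⟩

end augmentation

section exports

variable {ρ : Representation ℤ G A} {u : G × G → A}

/-- Element-level class layer: `u` is a 2-cocycle and the class-formation axioms hold along
every injective homomorphism from a finite group. This form is stable under restriction. -/
def IsClassLayerAll (ρ : Representation ℤ G A) (u : G × G → A) : Prop :=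
  u ∈ cocycles₂ (Rep.of ρ) ∧ ∀ (H : Type) [Group H] [Fintype H] (φ : H →* G),
    Function.Injective φ → IsClassLayerAt ρ u φ

theorem IsClassLayer.all (h : IsClassLayer (Rep.of ρ) u) : IsClassLayerAll ρ u :=
  ⟨h.cocycle, fun _ _ _ φ hφ => h.at_injective φ hφ⟩

theorem IsClassLayerAll.cocycle (h : IsClassLayerAll ρ u) : u ∈ cocycles₂ (Rep.of ρ) := h.1

/-- Restriction of a class layer to a subgroup (along an injective homomorphism). -/
theorem IsClassLayerAll.res (h : IsClassLayerAll ρ u) {H : Type} [Group H] (φ : H →* G)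
    (hφ : Function.Injective φ) :
    IsClassLayerAll (ρ.comp φ) (fun p : H × H => u (φ p.1, φ p.2)) := by
  refine ⟨resCocycle_mem (A := Rep.of ρ) h.1 φ, fun K _ _ ψ hψ => ?_⟩
  have := h.2 K (φ.comp ψ) (hφ.comp hψ)
  exact ⟨this.h1, this.h2, this.hord⟩

variable [Fintype G]

theorem IsClassLayerAll.isCohTrivial_splitModule (h : IsClassLayerAll ρ u) :
    IsCohTrivial (splitModule h.cocycle) :=
  TateThm.isCohTrivial_splitModule h.cocycle h.2

/-- **Tate's theorem**: for a class layer `(A, u)` and every injective `φ : H →* G` (e.g. the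
inclusion of a subgroup) there are isomorphisms `Ĥⁿ(H, ℤ) ≅ Ĥⁿ⁺²(H, A)` for all `n : ℤ`, the
composite of the connecting homomorphisms of `0 → I_G → ℤ[G] → ℤ → 0` and
`0 → A → A(u) → I_G → 0`. -/
noncomputable def IsClassLayerAll.tateIso (h : IsClassLayerAll ρ u) {H : Type} [Group H]
    [Fintype H] (φ : H →* G) (hφ : Function.Injective φ) (n : ℤ) :
    tateCohomology (Rep.res φ (Rep.trivial ℤ G ℤ)) n ≅
      tateCohomology (Rep.res φ (Rep.of ρ)) (n + 2) :=
  δIsoOfIsCohTrivial φ hφ (augSES_shortExact G) (isCohTrivial_regularRep (G := G) ℤ) n ≪≫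
    δIsoOfIsCohTrivial φ hφ (splitSES_shortExact h.cocycle) h.isCohTrivial_splitModule (n + 1) ≪≫
    eqToIso (by rw [add_assoc]; rfl)

/-- `H¹(G, ℤ) = 0` for a finite group. -/
theorem isZero_H1_trivial_int : IsZero (groupCohomology (Rep.trivial ℤ G ℤ) 1) := by
  apply isZero_H1_of_forall
  intro y hy
  refine ⟨0, fun g => ?_⟩
  have h0 : y g = 0 := eq_zero_of_map_mul_int y (fun a b => by
    have := hy a b
    rw [this, add_comm]
    rfl) g
  rw [h0, map_zero, sub_zero]

/-- **`H³(G, A) = 0`** for a class layer. -/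
theorem IsClassLayerAll.isZero_H3 (h : IsClassLayerAll ρ u) :
    IsZero (groupCohomology (Rep.of ρ) 3) := by
  rw [← isZero_tateCohomology_iff_groupCohomology _ 3]
  have e := h.tateIso (MonoidHom.id G) Function.injective_id 1
  have h1 : IsZero (tateCohomology (Rep.res (MonoidHom.id G) (Rep.trivial ℤ G ℤ)) 1) :=
    (isZero_tateCohomology_iff_groupCohomology (Rep.trivial ℤ G ℤ) 1).2 isZero_H1_trivial_int
  exact h1.of_iso e.symm

/-- **Surjectivity of the Nakayama map** `G^ab → A^G / N_G A`, `g ↦ Σ_x u(x, g)`. -/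
theorem IsClassLayerAll.nakayama_surjective (h : IsClassLayerAll ρ u) (a : A)
    (ha : ∀ g, ρ g a = a) : ∃ (g : G) (c : A), a = (∑ x, u (x, g)) + ρ.norm c :=
  nakayama_surjective_of_isZero h.cocycle (h.isCohTrivial_splitModule.isZero 0) a ha

/-- **Injectivity of the Nakayama map** `G^ab → A^G / N_G A`, `g ↦ Σ_x u(x, g)`. -/
theorem IsClassLayerAll.nakayama_injective (h : IsClassLayerAll ρ u) (g : G) (c : A)
    (hg : (∑ x, u (x, g)) = ρ.norm c) : g ∈ commutator G :=
  nakayama_injective_of_isZero h.cocycle (h.isCohTrivial_splitModule.isZero (-1)) g c hg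

end exports

end Fermat.Agent.Lib.CFT.Coh.TateThm
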