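/-
Bridge between Tate's theorem (`Coh/TateThm`) and the cocycle-level reciprocity layers of
`Coh/ClassFormation/Layer.lean`: a class layer is a reciprocity layer.
-/
import Mathlib
import Fermat.Agent.Lib.CFT.Coh.TateThm
import Fermat.Agent.Lib.CFT.Coh.ClassFormation.Layer

namespace Fermat.Agent.Lib.CFT.Coh.TateThm

open Representation groupCohomology CategoryTheory CategoryTheory.Limits

variable {G : Type} [Group G] [Fintype G]

/-- **Tate's theorem, cocycle form**: an (element-level) class layer is a reciprocity layer in the
sense of `ClassFormation.IsRecLayer`: the Nakayama map is bijective and `H²` is cyclic of order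
`|G|` generated by `u`. -/
theorem IsClassLayerAll.isRecLayer {A : Type} [AddCommGroup A] {ρ : Representation ℤ G A}
    {u : G × G → A} (h : IsClassLayerAll ρ u) : ClassFormation.IsRecLayer ρ u where
  coc := (mem_cocycles₂_iff (A := Rep.of ρ) u).1 h.cocycle
  nak_surj a ha := h.nakayama_surjective a (fun g => ha g)
  nak_inj g c hg := h.nakayama_injective g c hg
  gen x hx := by
    obtain ⟨m, b, hb⟩ := (h.2 G (MonoidHom.id G) Function.injective_id).h2 x hx
    refine ⟨m, b, funext fun p => ?_⟩
    simpa [ClassFormation.dOne] using hb p.1 p.2
  ord m b hb := (h.2 G (MonoidHom.id G) Function.injective_id).hord m b (fun g k => by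
    have := congr_fun hb (g, k)
    simpa [ClassFormation.dOne] using this)

/-- The same for every subgroup. -/
theorem IsClassLayerAll.isRecLayer_subgroup {A : Type} [AddCommGroup A]
    {ρ : Representation ℤ G A} {u : G × G → A} (h : IsClassLayerAll ρ u) (S : Subgroup G)
    [Fintype S] :
    ClassFormation.IsRecLayer (ρ.comp S.subtype) (ClassFormation.resCoc S.subtype u) :=
  (h.res S.subtype S.subtype_injective).isRecLayer

/-- **Tate's theorem** for an abstract `A : Rep ℤ G`: a class layer is a reciprocity layer. -/
theorem IsClassLayer.isRecLayer {A : Rep.{0} ℤ G} {u : G × G → A} (h : IsClassLayer A u) :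
    ClassFormation.IsRecLayer A.ρ u := by
  induction A using rep_int_induction with
  | h A ρ => exact h.all.isRecLayer

/-- The same for every subgroup. -/
theorem IsClassLayer.isRecLayer_subgroup {A : Rep.{0} ℤ G} {u : G × G → A}
    (h : IsClassLayer A u) (S : Subgroup G) [Fintype S] :
    ClassFormation.IsRecLayer (A.ρ.comp S.subtype) (ClassFormation.resCoc S.subtype u) := by
  induction A using rep_int_induction with
  | h A ρ => exact h.all.isRecLayer_subgroup S

end Fermat.Agent.Lib.CFT.Coh.TateThm
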