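/-
Fundamental-class criterion (P-CFT, WP Coh/TateThm, helper41): a 2-cocycle `u` of a finite group
`G` with values in `A` whose class has order `|G|` is a fundamental class (`IsClassLayer`) as soon
as `H¹(H, A) = 0` and `|H²(H, A)|` divides `|H|` for all subgroups `H`.  (The restriction of `u` to
`H` then automatically generates `H²(H, A)`, by `cor ∘ res = [G : H]`.)
-/
import Mathlib
import Fermat.Agent.Lib.CFT.Coh.TateThm.Main
import Fermat.Agent.Lib.CFT.Coh.TateThm.RecLayer
import Fermat.Agent.Lib.CFT.Coh.ResCorIndex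
import Fermat.Agent.Lib.CFT.Coh.ResCorLow

set_option autoImplicit false

namespace Fermat.Agent.Lib.CFT.Coh.TateThm

open Representation groupCohomology CategoryTheory CategoryTheory.Limits
open Fermat.Agent.Lib.CFT.Coh.ResCor

variable {G : Type} [Group G]

/-- The restriction of the class of `u` to a subgroup is the class of the restricted cocycle. -/
theorem map_subtype_H2π (A : Rep.{0} ℤ G) (u : G × G → A) (hu : u ∈ cocycles₂ A)
    (S : Subgroup G) :
    (groupCohomology.map S.subtype (𝟙 (Rep.res S.subtype A)) 2).hom (H2π A ⟨u, hu⟩) =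
      H2π (Rep.res S.subtype A) ⟨resCocycle u S.subtype, resCocycle_mem hu S.subtype⟩ := by
  have h := H2π_comp_map_apply (A := A) (B := Rep.res S.subtype A) S.subtype
    (𝟙 (Rep.res S.subtype A)) ⟨u, hu⟩
  rw [h]
  congr 1

/-- In a finite additive group whose order divides `n`, an element `y` such that `m • y = 0` only
for multiples `m` of `n` is a generator. -/
theorem exists_zsmul_eq_of_card_dvd {M : Type*} [AddCommGroup M] {n : ℕ} (hn : n ≠ 0)
    (hcard : Nat.card M ∣ n) (y : M) (hy : ∀ m : ℤ, m • y = 0 → (n : ℤ) ∣ m) (x : M) :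
    ∃ m : ℤ, x = m • y := by
  have hfin : Finite M := by
    apply Nat.finite_of_card_ne_zero
    intro h0
    rw [h0, zero_dvd_iff] at hcard
    exact hn hcard
  have h1 : n ∣ addOrderOf y := by
    have := hy (addOrderOf y) (by rw [natCast_zsmul]; exact addOrderOf_nsmul_eq_zero y)
    exact_mod_cast this
  have h2 : addOrderOf y ∣ Nat.card M := addOrderOf_dvd_natCard y
  have h3 : Nat.card (AddSubgroup.zmultiples y) = Nat.card M := by
    rw [Nat.card_zmultiples]
    exact Nat.dvd_antisymm h2 (hcard.trans h1)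
  have h4 : AddSubgroup.zmultiples y = ⊤ := AddSubgroup.eq_top_of_card_eq _ h3
  have h5 : x ∈ AddSubgroup.zmultiples y := by rw [h4]; trivial
  obtain ⟨m, hm⟩ := AddSubgroup.mem_zmultiples_iff.1 h5
  exact ⟨m, hm.symm⟩

/-- **Fundamental class criterion.** Let `u` be a 2-cocycle whose class in `H²(G, A)` has order
exactly `|G|`, and assume `H¹(H, A) = 0` and `|H²(H, A)| ∣ |H|` for every subgroup `H ≤ G`. Then
`u` is a fundamental class: its restrictions generate all `H²(H, A)` and have order `|H|`. -/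
theorem isClassLayer_of_card [Finite G] (A : Rep.{0} ℤ G) (u : G × G → A) (hu : u ∈ cocycles₂ A)
    (h1 : ∀ H : Subgroup G, IsZero (groupCohomology.H1 (Rep.res H.subtype A)))
    (h2 : ∀ H : Subgroup G, Nat.card (groupCohomology.H2 (Rep.res H.subtype A)) ∣ Nat.card H)
    (hord : ∀ m : ℤ, m • H2π A ⟨u, hu⟩ = 0 → (Nat.card G : ℤ) ∣ m) :
    IsClassLayer A u := by
  classical
  have key : ∀ (S : Subgroup G) (m : ℤ),
      m • H2π (Rep.res S.subtype A) ⟨resCocycle u S.subtype, resCocycle_mem hu S.subtype⟩ = 0 →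
        (Nat.card S : ℤ) ∣ m := by
    intro S m hm
    let _ : Fintype G := Fintype.ofFinite G
    let _ : Fintype S := Fintype.ofFinite S
    let _ : Fintype (G ⧸ S) := Fintype.ofFinite _
    let eG : tateCohomology A ((2 : ℕ) : ℤ) ≃ₗ[ℤ] groupCohomology A 2 :=
      ((TateCohomology.isoGroupCohomology 2).app A).toLinearEquiv
    let eS : tateCohomology (Rep.res S.subtype A) ((2 : ℕ) : ℤ) ≃ₗ[ℤ]
        groupCohomology (Rep.res S.subtype A) 2 :=
      ((TateCohomology.isoGroupCohomology 2).app (Rep.res S.subtype A)).toLinearEquiv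
    let μ : groupCohomology A 2 →ₗ[ℤ] groupCohomology (Rep.res S.subtype A) 2 :=
      (groupCohomology.map S.subtype (𝟙 (Rep.res S.subtype A)) 2).hom
    let φres : tateCohomology A ((2 : ℕ) : ℤ) →ₗ[ℤ]
        tateCohomology (Rep.res S.subtype A) ((2 : ℕ) : ℤ) := (tRes S A ((2 : ℕ) : ℤ)).hom
    let φcor : tateCohomology (Rep.res S.subtype A) ((2 : ℕ) : ℤ) →ₗ[ℤ]
        tateCohomology A ((2 : ℕ) : ℤ) := (tCor S A ((2 : ℕ) : ℤ)).hom
    have hsq : ∀ t, eS (φres t) = μ (eG t) := by
      intro t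
      have h := tRes_eq_groupCohomology_map S A 2
      have h2 : φres t = eS.symm (μ (eG t)) := by
        show (tRes S A ((2 : ℕ) : ℤ)).hom t = _
        rw [h]
        rfl
      rw [h2, LinearEquiv.apply_symm_apply]
    have hcor : ∀ t, φcor (φres t) = Fintype.card (G ⧸ S) • t :=
      fun t => tCor_tRes_apply S A ((2 : ℕ) : ℤ) t
    let x : groupCohomology A 2 := H2π A ⟨u, hu⟩
    let y : groupCohomology (Rep.res S.subtype A) 2 :=
      H2π (Rep.res S.subtype A) ⟨resCocycle u S.subtype, resCocycle_mem hu S.subtype⟩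
    have hxy : μ x = y := map_subtype_H2π A u hu S
    have hm' : m • y = 0 := hm
    have h0 : m • φres (eG.symm x) = 0 := by
      apply eS.injective
      rw [map_zsmul, hsq, LinearEquiv.apply_symm_apply, hxy, hm', map_zero]
    have h3 : m • (Fintype.card (G ⧸ S) • eG.symm x) = 0 := by
      rw [← hcor, ← map_zsmul, h0, map_zero]
    have h4 : (m * (Fintype.card (G ⧸ S) : ℤ)) • x = 0 := by
      have := congrArg eG h3
      rw [map_zero, map_zsmul, map_nsmul, LinearEquiv.apply_symm_apply] at this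
      rw [mul_smul, natCast_zsmul]
      exact this
    have h5 := hord _ h4
    have hidx : Nat.card G = Nat.card S * Fintype.card (G ⧸ S) := by
      rw [← Nat.card_eq_fintype_card (α := G ⧸ S)]
      exact Subgroup.card_eq_card_quotient_mul_card_subgroup S |>.trans (mul_comm _ _)
    rw [hidx] at h5
    push_cast at h5
    have hq : (Fintype.card (G ⧸ S) : ℤ) ≠ 0 := by
      have : Fintype.card (G ⧸ S) ≠ 0 := Fintype.card_ne_zero
      exact_mod_cast this
    exact Int.dvd_of_mul_dvd_mul_right hq h5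
  refine ⟨hu, h1, ?_, key⟩
  intro S x
  exact exists_zsmul_eq_of_card_dvd (Nat.card_pos.ne') (h2 S) _ (key S) x

/-- The order hypothesis of `isClassLayer_of_card` from an invariant map: an additive map
`inv : H²(G, A) → ℚ/ℤ` with `inv [u] = 1 / |G|`. -/
theorem dvd_of_inv_eq [Finite G] (A : Rep.{0} ℤ G) (x : groupCohomology.H2 A)
    (inv : groupCohomology.H2 A →+ AddCircle (1 : ℚ))
    (hinv : inv x = (((1 : ℚ) / (Nat.card G : ℚ) : ℚ) : AddCircle (1 : ℚ))) (m : ℤ)
    (hm : m • x = 0) : (Nat.card G : ℤ) ∣ m := by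
  have hn : (Nat.card G : ℚ) ≠ 0 := by
    have : Nat.card G ≠ 0 := Nat.card_pos.ne'
    exact_mod_cast this
  have h1 : m • inv x = 0 := by rw [← map_zsmul, hm, map_zero]
  rw [hinv, ← AddCircle.coe_zsmul, AddCircle.coe_eq_zero_iff] at h1
  obtain ⟨k, hk⟩ := h1
  refine ⟨k, ?_⟩
  have h2 : (m : ℚ) = (k : ℚ) * (Nat.card G : ℚ) := by
    rw [zsmul_eq_mul, zsmul_eq_mul, mul_one] at hk
    field_simp at hk
    linarith
  have h3 : (m : ℚ) = ((Nat.card G : ℤ) * k : ℤ) := by
    rw [h2]; push_cast; ring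
  exact_mod_cast h3

/-- **Fundamental class criterion**, invariant-map form. -/
theorem isClassLayer_of_inv [Finite G] (A : Rep.{0} ℤ G) (u : G × G → A) (hu : u ∈ cocycles₂ A)
    (h1 : ∀ H : Subgroup G, IsZero (groupCohomology.H1 (Rep.res H.subtype A)))
    (h2 : ∀ H : Subgroup G, Nat.card (groupCohomology.H2 (Rep.res H.subtype A)) ∣ Nat.card H)
    (inv : groupCohomology.H2 A →+ AddCircle (1 : ℚ))
    (hinv : inv (H2π A ⟨u, hu⟩) = (((1 : ℚ) / (Nat.card G : ℚ) : ℚ) : AddCircle (1 : ℚ))) :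
    IsClassLayer A u :=
  isClassLayer_of_card A u hu h1 h2 (dvd_of_inv_eq A _ inv hinv)

/-- **Tate's theorem from cardinalities**: under the hypotheses of the fundamental class
criterion, `(G, A, u)` is a reciprocity layer (Nakayama map bijective `G^ab ≃ A^G / N A`, etc.). -/
theorem isRecLayer_of_card [Fintype G] (A : Rep.{0} ℤ G) (u : G × G → A) (hu : u ∈ cocycles₂ A)
    (h1 : ∀ H : Subgroup G, IsZero (groupCohomology.H1 (Rep.res H.subtype A)))
    (h2 : ∀ H : Subgroup G, Nat.card (groupCohomology.H2 (Rep.res H.subtype A)) ∣ Nat.card H)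
    (hord : ∀ m : ℤ, m • H2π A ⟨u, hu⟩ = 0 → (Nat.card G : ℤ) ∣ m) :
    ClassFormation.IsRecLayer A.ρ u :=
  (isClassLayer_of_card A u hu h1 h2 hord).isRecLayer

/-- **Tate's theorem from cardinalities**, invariant-map form. -/
theorem isRecLayer_of_inv [Fintype G] (A : Rep.{0} ℤ G) (u : G × G → A) (hu : u ∈ cocycles₂ A)
    (h1 : ∀ H : Subgroup G, IsZero (groupCohomology.H1 (Rep.res H.subtype A)))
    (h2 : ∀ H : Subgroup G, Nat.card (groupCohomology.H2 (Rep.res H.subtype A)) ∣ Nat.card H)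
    (inv : groupCohomology.H2 A →+ AddCircle (1 : ℚ))
    (hinv : inv (H2π A ⟨u, hu⟩) = (((1 : ℚ) / (Nat.card G : ℚ) : ℚ) : AddCircle (1 : ℚ))) :
    ClassFormation.IsRecLayer A.ρ u :=
  (isClassLayer_of_inv A u hu h1 h2 inv hinv).isRecLayer

end Fermat.Agent.Lib.CFT.Coh.TateThm
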